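import Fermat.Agent.CFT.Flat.Fontaine

/-!
# Galois orders killed by `2` are not très ramifiés

If inertia at `2` acts on a Galois order killed by `2` through the square root of an integer of odd
valuation, then it acts trivially: this is the case `p = 2` of the bound of Fontaine.
-/

set_option autoImplicit false
set_option linter.style.haveILetI false
set_option linter.unusedSectionVars false

noncomputable section

namespace Fermat.Agent.CFT.Flat

open Fermat.Agent.Arith Fermat.Agent.FiniteFlat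

variable {M : Type} [AddCommGroup M] [DistribMulAction GQ M]

/-- A square root of twice an odd integer is moved by inertia at `2`. -/
theorem exists_moves_sqrt {π : QBar} (hπ : nrm 2 π ^ 2 = (2 : ℝ)⁻¹) :
    ∃ g ∈ inG 2, g π ≠ π := by
  by_contra! hfix
  have h0 := nrm_nonneg 2 π
  have h1 : nrm 2 π < 1 := by nlinarith
  have h2 := nrm_le_inv_of_fixed (p := 2) hfix h1
  norm_num at h2
  nlinarith

/-- The ramification bound at `2` for a uniformiser with two conjugates. -/
theorem not_fixM_eq_fixer [Finite M] (O : GalOrder 2 M) (hkill : ∀ m : M, 2 • m = 0) {π : QBar}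
    (hsq : ∀ g ∈ inG 2, g π = π ∨ g π = -π) (hπ : nrm 2 π ^ 2 = (2 : ℝ)⁻¹) :
    fixM 2 M ≠ fixer 2 π := by
  classical
  intro hH
  haveI := Fintype.ofFinite M
  obtain ⟨g₀, hg₀, hg₀π⟩ := exists_moves_sqrt hπ
  have hπ0 : π ≠ 0 := fun h => by simp [h] at hπ
  have hne : -π ≠ π := fun h => hπ0 (by linear_combination (-1 / 2 : QBar) * h)
  have horb : orb 2 π = {π, -π} := by
    ext y
    rw [mem_orb, Finset.mem_insert, Finset.mem_singleton]
    constructor
    · rintro ⟨g, hg, rfl⟩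
      exact hsq g hg
    · rintro (rfl | rfl)
      · exact ⟨1, one_mem _, rfl⟩
      · exact ⟨g₀, hg₀, (hsq g₀ hg₀).resolve_left hg₀π⟩
  have hidx : (fixer 2 π).relIndex (inG 2) = 2 := by
    rw [← card_orb, horb, Finset.card_pair hne.symm]
  have hFix : fixM 2 M ⊓ fixer 2 ((2 : ℕ) : QBar) = fixer 2 π := by
    rw [← hH]
    exact inf_eq_left.mpr fun g hg =>
      (mem_fixer 2).mpr ⟨((mem_fixM 2 M).mp hg).1, map_natCast g 2⟩
  have u : IsUnif (p := 2) (fixM 2 M ⊓ fixer 2 ((2 : ℕ) : QBar)) π := by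
    rw [hFix]
    refine ⟨isLevel_fixer π, fun g hg => ((mem_fixer 2).mp hg).2, ?_⟩
    rw [hidx, hπ]
    norm_num
  have hera : (orb 2 π).erase π = {-π} := by
    rw [horb, Finset.erase_insert (by simpa using hne.symm)]
  have hd : nrm 2 (π - -π) = nrm 2 π / 2 := by
    rw [show π - -π = ((2 : ℕ) : QBar) * π by push_cast; ring, nrm_mul, nrm_natCast_self]
    push_cast
    ring
  have hgap : gap 2 π = nrm 2 π / 2 := by
    rw [gap, dif_pos (by rw [hera]; exact Finset.singleton_nonempty _)]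
    simp only [hera, Finset.inf'_singleton, hd]
  have hbrk : brk 2 π / nrm 2 π = nrm 2 π / 4 := by
    rw [brk, hgap, hera, Finset.prod_singleton, hd]
    field_simp [(nrm_pos 2 hπ0).ne']
    ring
  refine fontaine O hkill (e := 1) one_pos (by norm_num) (π₀ := ((2 : ℕ) : QBar)) (pow_one _) u
    (by rw [hera]; exact Finset.singleton_nonempty _) ?_
  rw [hbrk]
  have h0 := nrm_nonneg 2 π
  norm_num
  nlinarith

/-- A Galois order killed by `2` on which inertia acts through a square root of an integer of odd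
valuation is unramified at `2`. -/
theorem smul_eq_of_sqrt_odd [Finite M] (O : GalOrder 2 M) (hkill : ∀ m : M, 2 • m = 0) {δ : ℤ}
    {j m : ℕ} (hm : ¬ 2 ∣ m) (hδ : δ.natAbs = 2 ^ (2 * j + 1) * m) {s : QBar}
    (hs : s ^ 2 = (δ : QBar)) (hker : ∀ g ∈ inG 2, g s = s → ∀ x : M, g • x = x) :
    ∀ g ∈ inG 2, ∀ x : M, g • x = x := by
  classical
  set π := s / ((2 : ℕ) : QBar) ^ j with hπdef
  have hgπ : ∀ g : GQ, g π = g s / ((2 : ℕ) : QBar) ^ j := fun g => by
    rw [hπdef, map_div₀, map_pow, map_natCast]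
  have h2 : ((2 : ℕ) : QBar) ^ j ≠ 0 := pow_ne_zero _ (Nat.cast_ne_zero.mpr two_ne_zero)
  have hfx : ∀ g : GQ, g π = π ↔ g s = s := fun g => by rw [hgπ, hπdef, div_left_inj' h2]
  have hsq : ∀ g : GQ, g π = π ∨ g π = -π := fun g => by
    have : g s ^ 2 = s ^ 2 := by rw [← map_pow, hs, map_intCast]
    rcases sq_eq_sq_iff_eq_or_eq_neg.mp this with h | h
    · exact Or.inl ((hfx g).mpr h)
    · exact Or.inr (by rw [hgπ, h, hπdef, neg_div])
  have hπ : nrm 2 π ^ 2 = (2 : ℝ)⁻¹ := by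
    have hn : nrm 2 (δ : QBar) = nrm 2 ((δ.natAbs : ℕ) : QBar) := by
      rcases Int.natAbs_eq δ with h | h <;> conv_lhs => rw [h]
      · rw [Int.cast_natCast]
      · rw [Int.cast_neg, Int.cast_natCast, nrm_neg]
    rw [← nrm_pow, hπdef, div_pow, hs, nrm_div, hn, hδ, Nat.cast_mul, Nat.cast_pow, nrm_mul,
      nrm_natCast_eq_one 2 hm, nrm_pow, nrm_pow, nrm_pow, nrm_natCast_self]
    push_cast
    field_simp
    ring
  by_contra! hcon
  obtain ⟨g₁, hg₁, x, hx⟩ := hcon
  refine not_fixM_eq_fixer O hkill (fun g _ => hsq g) hπ (le_antisymm (fun g hg => ?_) fun g hg => ?_)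
  · obtain ⟨hgI, hgM⟩ := (mem_fixM 2 M).mp hg
    refine (mem_fixer 2).mpr ⟨hgI, ?_⟩
    by_contra hgπ'
    -- both `g` and `g₁` move the square root, so their quotient acts trivially
    have hg₁π : g₁ π ≠ π := fun h => hx (hker g₁ hg₁ ((hfx g₁).mp h) x)
    have hq : (g⁻¹ * g₁) π = π := by
      rw [AlgEquiv.mul_apply, (hsq g₁).resolve_left hg₁π, ← (hsq g).resolve_left hgπ',
        ← AlgEquiv.mul_apply, inv_mul_cancel, AlgEquiv.one_apply]
    have h1 := hker _ ((inG 2).mul_mem ((inG 2).inv_mem hgI) hg₁) ((hfx _).mp hq) x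
    rw [mul_smul, inv_smul_eq_iff, hgM] at h1
    exact hx h1
  · obtain ⟨hgI, hgπ'⟩ := (mem_fixer 2).mp hg
    exact (mem_fixM 2 M).mpr ⟨hgI, hker g hgI ((hfx g).mp hgπ')⟩

end Fermat.Agent.CFT.Flat

end
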